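import Mathlib

/-!
# (FQ) = F10: descent of rank / kernel statements along a field extension

Mathlib-only.  `φ : k0 →+* k` is a homomorphism of fields and `M : Matrix m n k0`.

* `mulVecLin_map_surjective_iff` : `M.map φ` is onto iff `M` is.
* `ker_map_eq_span` : `ker (M.map φ)` is the `k`-span of the image of `ker M`.
* `exists_ker_line` : if `card n = card m + 1` and `M` is onto, both kernels are lines spanned by the
  same vector `v : n → k0`.
* `descend_functionals` : the residue-descent statement consumed by the chord construction.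
* `exists_normalised` : a kernel vector over `k` with one coordinate equal to `1` comes from `k0`.
-/

namespace Fermat.Agent.FF2.FQD

open Matrix Module

variable {k0 k : Type*} [Field k0] [Field k] (φ : k0 →+* k)
variable {m n : Type*} [Fintype m] [Fintype n]

set_option linter.unusedSectionVars false
set_option linter.style.haveILetI false

/-- Compatibility of `mulVec` with a `k0`-linear functional `ρ : k → k0`, where `k` is a
`k0`-algebra through `φ`. -/
theorem mulVec_comp_linear (M : Matrix m n k0) (w : n → k)
    (ρ : letI := φ.toAlgebra; k →ₗ[k0] k0) :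
    M.mulVec (fun i => ρ (w i)) = fun r => ρ ((M.map φ).mulVec w r) := by
  letI := φ.toAlgebra
  funext r
  simp only [mulVec, dotProduct, map_apply, map_sum]
  refine Finset.sum_congr rfl fun i _ => ?_
  have h : φ (M r i) * w i = (M r i) • w i := by
    rw [Algebra.smul_def]; rfl
  rw [h, map_smul, smul_eq_mul]

/-- `mulVec` commutes with applying `φ` coordinatewise. -/
theorem map_mulVec_comp (M : Matrix m n k0) (v : n → k0) :
    (M.map φ).mulVec (φ ∘ v) = φ ∘ M.mulVec v := by
  funext r
  simp [mulVec, dotProduct, map_sum]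

theorem comp_injective : Function.Injective (fun v : n → k0 => φ ∘ v) := by
  intro v w h
  funext i
  exact φ.injective (congrFun h i)

theorem comp_ne_zero {v : n → k0} (hv : v ≠ 0) : φ ∘ v ≠ 0 := by
  intro h
  apply hv
  funext i
  exact φ.injective (by simpa using congrFun h i)

/-- A `k0`-linear retraction of `φ`. -/
theorem exists_retraction :
    ∃ ρ : (letI := φ.toAlgebra; k →ₗ[k0] k0), ∀ x, ρ (φ x) = x := by
  letI := φ.toAlgebra
  obtain ⟨g, hg⟩ := (Algebra.linearMap k0 k).exists_leftInverse_of_injective
    (LinearMap.ker_eq_bot.mpr (algebraMap k0 k).injective)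
  exact ⟨g, fun x => LinearMap.congr_fun hg x⟩

/-- **(FQ-1)** surjectivity descends and ascends along a field extension. -/
theorem mulVecLin_map_surjective_iff (M : Matrix m n k0) :
    Function.Surjective (M.map φ).mulVecLin ↔ Function.Surjective M.mulVecLin := by
  classical
  constructor
  · intro h u
    obtain ⟨ρ, hρ⟩ := exists_retraction φ
    obtain ⟨w, hw⟩ := h (φ ∘ u)
    refine ⟨fun i => ρ (w i), ?_⟩
    rw [Matrix.mulVecLin_apply] at hw ⊢
    rw [mulVec_comp_linear φ M w ρ, hw]
    funext r
    simp [hρ]
  · intro h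
    have h' : Function.Surjective M.mulVec := fun u => by
      obtain ⟨v, hv⟩ := h u
      exact ⟨v, by simpa using hv⟩
    obtain ⟨B, hB⟩ := Matrix.mulVec_surjective_iff_exists_right_inverse.mp h'
    have hB' : (M.map φ) * (B.map φ) = 1 := by
      rw [← Matrix.map_mul, hB, Matrix.map_one _ φ.map_zero φ.map_one]
    intro u
    refine ⟨(B.map φ).mulVec u, ?_⟩
    rw [Matrix.mulVecLin_apply, Matrix.mulVec_mulVec, hB', Matrix.one_mulVec]

/-- **(FQ-2)** the kernel of the extended matrix is spanned by the kernel of the original one. -/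
theorem ker_map_eq_span (M : Matrix m n k0) :
    LinearMap.ker (M.map φ).mulVecLin
      = Submodule.span k ((fun v : n → k0 => φ ∘ v) '' (LinearMap.ker M.mulVecLin : Set (n → k0))) := by
  classical
  letI := φ.toAlgebra
  apply le_antisymm
  · intro w hw
    rw [LinearMap.mem_ker, Matrix.mulVecLin_apply] at hw
    let B := Basis.ofVectorSpace k0 k
    -- coordinates of `w`
    let c : _ → n → k0 := fun s i => B.repr (w i) s
    have hc : ∀ s, c s ∈ LinearMap.ker M.mulVecLin := by
      intro s
      rw [LinearMap.mem_ker, Matrix.mulVecLin_apply]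
      have := mulVec_comp_linear φ M w (B.coord s)
      simp only [Basis.coord_apply] at this
      rw [show c s = fun i => B.repr (w i) s from rfl, this, hw]
      funext r
      simp
    let T : Finset _ := Finset.univ.biUnion fun i => (B.repr (w i)).support
    have hw' : w = ∑ s ∈ T, (B s) • (φ ∘ c s) := by
      funext i
      rw [Finset.sum_apply]
      have h1 : w i = Finsupp.linearCombination k0 B (B.repr (w i)) :=
        (B.linearCombination_repr (w i)).symm
      rw [Finsupp.linearCombination_apply] at h1
      rw [Finsupp.sum_of_support_subset (s := T)] at h1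
      · conv_lhs => rw [h1]
        refine Finset.sum_congr rfl fun s _ => ?_
        simp only [Pi.smul_apply, Function.comp_apply, smul_eq_mul]
        rw [Algebra.smul_def, mul_comm]
        rfl
      · intro s hs
        exact Finset.mem_biUnion.mpr ⟨i, Finset.mem_univ _, hs⟩
      · intro s _
        exact zero_smul _ _
    rw [hw']
    refine Submodule.sum_mem _ fun s _ => Submodule.smul_mem _ _ (Submodule.subset_span ?_)
    exact ⟨c s, hc s, rfl⟩
  · rw [Submodule.span_le]
    rintro _ ⟨v, hv, rfl⟩
    rw [SetLike.mem_coe, LinearMap.mem_ker, Matrix.mulVecLin_apply] at hv ⊢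
    show (M.map φ).mulVec (φ ∘ v) = 0
    rw [map_mulVec_comp, hv]
    funext r
    simp

/-- If `card n = card m + 1` and `M` is onto then `ker M` is a line. -/
theorem finrank_ker_eq_one {K : Type*} [Field K] (M : Matrix m n K)
    (hcard : Fintype.card n = Fintype.card m + 1) (hs : Function.Surjective M.mulVecLin) :
    finrank K (LinearMap.ker M.mulVecLin) = 1 := by
  have h := LinearMap.finrank_range_add_finrank_ker M.mulVecLin
  rw [LinearMap.range_eq_top.mpr hs, finrank_top, Module.finrank_fintype_fun_eq_card,
    Module.finrank_fintype_fun_eq_card, hcard] at h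
  omega

/-- **(FQ-3)** the rank-one case: both kernels are lines spanned by the same `k0`-vector. -/
theorem exists_ker_line (M : Matrix m n k0)
    (hcard : Fintype.card n = Fintype.card m + 1) (hs : Function.Surjective M.mulVecLin) :
    ∃ v : n → k0, v ≠ 0 ∧ M.mulVec v = 0 ∧ (∀ w, M.mulVec w = 0 → ∃ c : k0, w = c • v) ∧
      ∀ w : n → k, (M.map φ).mulVec w = 0 → ∃ c : k, w = c • (φ ∘ v) := by
  classical
  have h0 := finrank_ker_eq_one M hcard hs
  have h1 := finrank_ker_eq_one (M.map φ) hcard ((mulVecLin_map_surjective_iff φ M).mpr hs)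
  obtain ⟨⟨v, hvker⟩, hv0, hvspan⟩ := finrank_eq_one_iff'.mp h0
  have hvker' : M.mulVec v = 0 := by simpa using hvker
  have hv : v ≠ 0 := fun h => hv0 (Subtype.ext h)
  refine ⟨v, hv, hvker', ?_, ?_⟩
  · intro w hw
    obtain ⟨c, hc⟩ := hvspan ⟨w, by simpa using hw⟩
    exact ⟨c, by simpa using (congrArg Subtype.val hc).symm⟩
  · intro w hw
    have hφv : (M.map φ).mulVec (φ ∘ v) = 0 := by
      rw [map_mulVec_comp, hvker']
      funext r
      simp
    obtain ⟨⟨u, huker⟩, hu0, huspan⟩ := finrank_eq_one_iff'.mp h1
    obtain ⟨a, ha⟩ := huspan ⟨φ ∘ v, by simpa using hφv⟩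
    obtain ⟨b, hb⟩ := huspan ⟨w, by simpa using hw⟩
    have ha' : a • u = φ ∘ v := by simpa using congrArg Subtype.val ha
    have hb' : b • u = w := by simpa using congrArg Subtype.val hb
    have ha0 : a ≠ 0 := by
      rintro rfl
      rw [zero_smul] at ha'
      exact comp_ne_zero φ hv ha'.symm
    refine ⟨b * a⁻¹, ?_⟩
    rw [← ha', smul_smul, mul_assoc, inv_mul_cancel₀ ha0, mul_one, hb']

/-- **(FQ-4)** residue descent in the shape consumed by the chord construction: surjectivity and a
kernel vector with prescribed vanishing / non-vanishing of `k0`-rational functionals come down from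
`k` to `k0`. -/
theorem descend_functionals (M : Matrix m n k0)
    (hcard : Fintype.card n = Fintype.card m + 1)
    (H1k : Function.Surjective (M.map φ).mulVecLin)
    (fbk : n → k) (hne : fbk ≠ 0) (hker : (M.map φ).mulVec fbk = 0)
    {O : Type*} (a b : O → n → k0)
    (hO0 : ∀ o, ∑ i, fbk i * φ (a o i) = 0)
    (hO1 : ∀ o, ∑ i, fbk i * φ (b o i) ≠ 0) :
    Function.Surjective M.mulVecLin ∧
      ∃ fb : n → k0, fb ≠ 0 ∧ M.mulVec fb = 0 ∧
        (∀ o, ∑ i, fb i * a o i = 0) ∧ (∀ o, ∑ i, fb i * b o i ≠ 0) := by
  have hs := (mulVecLin_map_surjective_iff φ M).mp H1k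
  refine ⟨hs, ?_⟩
  obtain ⟨v, hv, hvker, -, hline⟩ := exists_ker_line φ M hcard hs
  obtain ⟨c, hc⟩ := hline fbk hker
  have hc0 : c ≠ 0 := by
    rintro rfl
    exact hne (by rw [hc, zero_smul])
  have key : ∀ (x : n → k0), ∑ i, fbk i * φ (x i) = c * φ (∑ i, v i * x i) := by
    intro x
    rw [map_sum, Finset.mul_sum]
    refine Finset.sum_congr rfl fun i _ => ?_
    rw [hc]
    simp only [Pi.smul_apply, Function.comp_apply, smul_eq_mul, map_mul]
    ring
  refine ⟨v, hv, hvker, fun o => ?_, fun o h => ?_⟩
  · have := hO0 o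
    rw [key, mul_eq_zero] at this
    rcases this with h | h
    · exact absurd h hc0
    · exact φ.injective (by rw [h, map_zero])
  · apply hO1 o
    rw [key, h, map_zero, mul_zero]

/-- **(FQ-5)** normalised form: a kernel vector over `k` with one coordinate `1` comes from `k0`,
and its preimage spans `ker M`. -/
theorem exists_normalised (M : Matrix m n k0)
    (hcard : Fintype.card n = Fintype.card m + 1)
    (H1k : Function.Surjective (M.map φ).mulVecLin)
    (fbk : n → k) (hker : (M.map φ).mulVec fbk = 0) (i0 : n) (h1 : fbk i0 = 1) :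
    ∃ fb : n → k0, fb i0 = 1 ∧ φ ∘ fb = fbk ∧ M.mulVec fb = 0 ∧
      ∀ w, M.mulVec w = 0 → ∃ c : k0, w = c • fb := by
  have hs := (mulVecLin_map_surjective_iff φ M).mp H1k
  obtain ⟨v, hv, hvker, hline0, hline⟩ := exists_ker_line φ M hcard hs
  obtain ⟨c, hc⟩ := hline fbk hker
  have h1' : c * φ (v i0) = 1 := by
    have := congrFun hc i0
    rw [h1] at this
    simpa using this.symm
  have hvi0 : v i0 ≠ 0 := by
    rintro h
    rw [h, map_zero, mul_zero] at h1'
    exact zero_ne_one h1'
  have hcval : c = φ (v i0)⁻¹ := by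
    rw [map_inv₀]
    exact eq_inv_of_mul_eq_one_left h1'
  refine ⟨(v i0)⁻¹ • v, ?_, ?_, ?_, ?_⟩
  · simp [hvi0]
  · rw [hc, hcval]
    funext i
    simp
  · rw [Matrix.mulVec_smul, hvker, smul_zero]
  · intro w hw
    obtain ⟨d, hd⟩ := hline0 w hw
    refine ⟨d * v i0, ?_⟩
    rw [smul_smul, mul_assoc, mul_inv_cancel₀ hvi0, mul_one, hd]

end Fermat.Agent.FF2.FQD
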