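import Mathlib
import Fermat.Agent.FF2.FQD.Descent
import Fermat.Agent.FF2.Chord.Cond

/-!
# (SF-3) residue descent `k ← ResidueField W` for the constant condition matrix of a chord

One-line instantiation of `FQD.descend_functionals` at `M := (cond0 C).map (residue W)`, `φ := κ`.
(`Fermat.Agent.FF2.Chord.Cond` is helper2's file, vendored byte-identically.)
-/

namespace Fermat.Agent.FF2.FQD

open PowerSeries IsLocalRing Fermat.Agent.FF2.Chord

variable {W : Type*} [CommRing W] [IsLocalRing W] {ι D S ν O : Type*}
  [Fintype ι] [Fintype D] [Fintype S] [Fintype ν]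

/-- **(SF-3)** surjectivity and the special kernel vector of the reduced constant condition matrix
descend from an extension field `k` of `ResidueField W` to `ResidueField W` itself. -/
theorem chord_residue_descent (C : ChordData W ι D S ν O) {k : Type*} [Field k]
    (κ : ResidueField W →+* k)
    (hcard : Fintype.card ι = Fintype.card (D ⊕ D ⊕ S ⊕ ν) + 1)
    (H1k : Function.Surjective (((cond0 C).map (residue W)).map κ).mulVecLin)
    (fbk : ι → k) (hne : fbk ≠ 0)
    (hker : (((cond0 C).map (residue W)).map κ).mulVec fbk = 0)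
    (hO0 : ∀ o, ∑ i, fbk i * κ (residue W (coeff 0 (C.τO o i))) = 0)
    (hO1 : ∀ o, ∑ i, fbk i * κ (residue W (coeff 1 (C.τO o i))) ≠ 0) :
    Function.Surjective ((cond0 C).map (residue W)).mulVecLin ∧
      ∃ fb : ι → ResidueField W, fb ≠ 0 ∧ ((cond0 C).map (residue W)).mulVec fb = 0 ∧
        (∀ o, ∑ i, fb i * residue W (coeff 0 (C.τO o i)) = 0) ∧
        (∀ o, ∑ i, fb i * residue W (coeff 1 (C.τO o i)) ≠ 0) :=
  descend_functionals κ ((cond0 C).map (residue W)) hcard H1k fbk hne hker
    (fun o i => residue W (coeff 0 (C.τO o i))) (fun o i => residue W (coeff 1 (C.τO o i)))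
    hO0 hO1

end Fermat.Agent.FF2.FQD
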