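import Mathlib
import Fermat.Agent.FF2.FQD.ChordDescent

/-!
# (SF-3') residue descent for the constant condition matrix, hom form

Same as `chord_residue_descent`, but the facts over the big field `k` are stated through a ring hom
`ρ : W →+* k` killing the maximal ideal of `W` (e.g. `ρ = π.comp j`), which is the shape produced by
the special-fibre computation.
-/

namespace Fermat.Agent.FF2.FQD

open PowerSeries IsLocalRing Fermat.Agent.FF2.Chord

variable {W : Type*} [CommRing W] [IsLocalRing W] {ι D S ν O : Type*}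
  [Fintype ι] [Fintype D] [Fintype S] [Fintype ν]

/-- The hom `ResidueField W →+* k` induced by `ρ : W →+* k` killing the maximal ideal. -/
noncomputable def residueLift {k : Type*} [Field k] (ρ : W →+* k)
    (hρ : ∀ w ∈ maximalIdeal W, ρ w = 0) : ResidueField W →+* k :=
  Ideal.Quotient.lift (maximalIdeal W) ρ hρ

@[simp] theorem residueLift_residue {k : Type*} [Field k] (ρ : W →+* k)
    (hρ : ∀ w ∈ maximalIdeal W, ρ w = 0) (w : W) :
    residueLift ρ hρ (residue W w) = ρ w :=
  Ideal.Quotient.lift_mk _ _ _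

theorem map_residue_map_residueLift {k : Type*} [Field k] (ρ : W →+* k)
    (hρ : ∀ w ∈ maximalIdeal W, ρ w = 0) {m n : Type*} (M : Matrix m n W) :
    (M.map (residue W)).map (residueLift ρ hρ) = M.map ρ := by
  ext r i
  simp

/-- **(SF-3')** hom form of the residue descent. -/
theorem chord_residue_descent_of_hom (C : ChordData W ι D S ν O) {k : Type*} [Field k]
    (ρ : W →+* k) (hρ : ∀ w ∈ maximalIdeal W, ρ w = 0)
    (hcard : Fintype.card ι = Fintype.card (D ⊕ D ⊕ S ⊕ ν) + 1)
    (H1k : Function.Surjective ((cond0 C).map ρ).mulVecLin)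
    (fbk : ι → k) (hne : fbk ≠ 0)
    (hker : ((cond0 C).map ρ).mulVec fbk = 0)
    (hO0 : ∀ o, ∑ i, fbk i * ρ (coeff 0 (C.τO o i)) = 0)
    (hO1 : ∀ o, ∑ i, fbk i * ρ (coeff 1 (C.τO o i)) ≠ 0) :
    Function.Surjective ((cond0 C).map (residue W)).mulVecLin ∧
      ∃ fb : ι → ResidueField W, fb ≠ 0 ∧ ((cond0 C).map (residue W)).mulVec fb = 0 ∧
        (∀ o, ∑ i, fb i * residue W (coeff 0 (C.τO o i)) = 0) ∧
        (∀ o, ∑ i, fb i * residue W (coeff 1 (C.τO o i)) ≠ 0) := by
  refine chord_residue_descent C (residueLift ρ hρ) hcard ?_ fbk hne ?_ ?_ ?_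
  · rw [map_residue_map_residueLift]; exact H1k
  · rw [map_residue_map_residueLift]; exact hker
  · intro o; simpa using hO0 o
  · intro o; simpa using hO1 o

end Fermat.Agent.FF2.FQD
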